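import Mathlib
import Fermat.Agent.MUL.Lib.BadRed.Nodal.Interp1
import Fermat.Agent.MUL.Lib.BadRed.Nodal.Deuring2.S1
import Fermat.Agent.MUL.Lib.BadRed.Nodal.P.Cov

section MergeWrap_Lib_BadRed_PeuD_LiftPhi -- from Lib/BadRed/PeuD/LiftPhi.lean

set_option autoImplicit false

noncomputable section

open AlgebraicCurve Fermat.Agent.RR Fermat.Agent.Deuring Fermat.Agent.BadRed

namespace Fermat.Agent.PeuD

section OneCurve

variable {k F : Type*} [Field k] [Field F] [Algebra k F]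

/-- Riemann-Roch on one curve: a nonzero function of `L(R)` with a SIMPLE zero at every place of
the finite set `Z` (`R = 0` on `Z`, `deg R > 2 g - 1 + |Z|`). -/
theorem liftPhi_exists_simple_zeros (h : IsRRField k F) [Infinite k] (R : Divisor k F)
    (Z : Finset (Place k F)) (hZ : ∀ P ∈ Z, R P = 0)
    (hdeg : 2 * (genusFF k F : ℤ) + Z.card - 1 < Divisor.degree R) :
    ∃ a ∈ riemannRochSpace R, a ≠ 0 ∧ ∀ P ∈ Z, P.ord a = 1 := by
  classical
  set D : Divisor k F := R - sumPlaces Z with hD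
  have hdegD : Divisor.degree D = Divisor.degree R - Z.card := by
    rw [hD, map_sub, degree_sumPlaces h]
  obtain ⟨a, haD, ha0, hord⟩ :=
    Interp1.exists_exact_ord h D (by rw [hdegD]; linarith) Z
  have hDapp : ∀ v, D v = R v - sumPlaces Z v := fun v => by
    rw [hD, Finsupp.sub_apply]
  refine ⟨a, ?_, ha0, ?_⟩
  · refine riemannRochSpace_mono ?_ haD
    rw [Finsupp.le_def]
    intro v
    rw [hDapp]
    have h1 : (0 : ℤ) ≤ sumPlaces Z v := by
      have := sumPlaces_nonneg Z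
      rw [Finsupp.le_def] at this
      exact this v
    linarith
  · intro P hP
    rw [hord P hP, hDapp, hZ P hP, sumPlaces_apply_of_mem hP]
    norm_num

end OneCurve

variable {K F k Fk₁ Fk₂ : Type*} [Field K] [Field F] [Algebra K F]
  [Field k] [Field Fk₁] [Algebra k Fk₁] [Field Fk₂] [Algebra k Fk₂] {ι : Type*} [Fintype ι]

/-- **ETA-LIFT (i)**: Riemann-Roch on `C₁`.  For every `m ≥ N.m₀` there is `φ ∈ Fk₁` with a SIMPLE
zero at EVERY node `s₁ i` and poles only in `m R₁`; the pair `(φ, 0)` is a nodal pair. -/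
theorem liftPhi_exists [Infinite k] (N : NodalSeed K F k Fk₁ Fk₂ ι) {m : ℕ} (hm : N.m₀ ≤ m) :
    ∃ φ : Fk₁, φ ≠ 0 ∧ φ ∈ riemannRochSpace (m • N.R₁) ∧ (∀ i, (N.s₁ i).ord φ = 1) ∧
      ((φ, 0) : Fk₁ × Fk₂) ∈ nodalRR N.s₁ N.s₂ (m • N.R₁) (m • N.R₂) := by
  classical
  have hdeg₁ : Divisor.degree (m • N.R₁) = m * Divisor.degree N.R₁ := by
    rw [map_nsmul, nsmul_eq_mul]
  have h2 : (N.m₀ : ℤ) ≤ m := by exact_mod_cast hm
  unfold NodalSeed.m₀ at h2
  push_cast at h2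
  have hg := Int.natCast_nonneg (genusFF K F)
  have hg₂ := Int.natCast_nonneg (genusFF k Fk₂)
  have h3 : (m : ℤ) ≤ m * Divisor.degree N.R₁ := by
    have := N.R₁_pos
    have hm0 : (0 : ℤ) ≤ m := Int.natCast_nonneg m
    nlinarith
  have hcard : ((Finset.univ.image N.s₁).card : ℤ) ≤ Fintype.card ι := by
    exact_mod_cast Finset.card_image_le.trans (le_of_eq Finset.card_univ)
  obtain ⟨φ, hφR, hφ0, hφ⟩ := liftPhi_exists_simple_zeros N.S₁.hFk (m • N.R₁)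
    (Finset.univ.image N.s₁)
    (by
      intro P hP
      obtain ⟨i, -, rfl⟩ := Finset.mem_image.mp hP
      rw [Finsupp.smul_apply, N.R₁_node i, smul_zero])
    (by rw [hdeg₁]; omega)
  have hφi : ∀ i, (N.s₁ i).ord φ = 1 := fun i =>
    hφ _ (Finset.mem_image_of_mem _ (Finset.mem_univ i))
  refine ⟨φ, hφ0, hφR, hφi, ?_⟩
  rw [mem_nodalRR]
  refine ⟨hφR, Submodule.zero_mem _, fun i => ⟨0, ?_, valAt_zero _⟩⟩
  right
  rw [map_zero, sub_zero, hφi i]
  exact one_pos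

/-- **ETA-LIFT (i), lifted**: a function `f ∈ L(m D₀) ∩ O₁ ∩ O₂` whose first reduction has a SIMPLE
zero at every node and poles only in `m R₁`, and whose second reduction is `0`. -/
theorem liftPhi_exists_lift [Infinite k] (N : NodalSeed K F k Fk₁ Fk₂ ι) {m : ℕ}
    (hm : N.m₀ ≤ m) :
    ∃ f : F, f ∈ riemannRochSpace (m • N.D₀) ∧ f ∈ N.S₁.Ov ∧ f ∈ N.S₂.Ov ∧
      N.S₁.red f ≠ 0 ∧ N.S₁.red f ∈ riemannRochSpace (m • N.R₁) ∧
      (∀ i, (N.s₁ i).ord (N.S₁.red f) = 1) ∧ N.S₂.red f = 0 := by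
  obtain ⟨φ, hφ0, hφR, hφi, hpair⟩ := liftPhi_exists N hm
  obtain ⟨f, hf, hf1, hf2, e1, e2⟩ := N.exists_lift hm hpair
  exact ⟨f, hf, hf1, hf2, e1 ▸ hφ0, e1 ▸ hφR, fun i => e1 ▸ hφi i, e2⟩

end Fermat.Agent.PeuD
end
end MergeWrap_Lib_BadRed_PeuD_LiftPhi
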